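import Fermat.Agent.SL3.Main
import Fermat.Agent.SL1.Core
import Fermat.Agent.SL1.Good
import Fermat.Agent.SL1.Mult
import Fermat.Agent.SL2.LowerX
import Fermat.Prelude.Def_GaloisRep_Residual

/-!
# `S38`
-/

set_option autoImplicit false
set_option linter.unusedSectionVars false

noncomputable section

namespace Fermat.Agent.SL3

open IsLocalRing Fermat.Agent.DefRing Fermat.Agent.RTan Fermat.Agent.LocRing
open WeierstrassCurve WeierstrassCurve.Affine
open Fermat.Agent.TWP (Pl Pl_lies Qb)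
open Fermat.Agent.RTE (EW rbE chiO)

theorem lowX : LowX := by
  intro O _ _ _ _ _ _ rbar sd p _ W χ m s N G Y hm hpm hpO hΔm hχ hp2 l hlp h hsN hpN hτ
  exact SL2.lowerX Y hm hpm hpO hΔm hχ hp2 hlp h hsN hpN hτ

theorem contra {W : WeierstrassCurve ℤ} {p : ℕ} [hp : Fact p.Prime] [(EW W).IsElliptic]
    (hp5 : 5 ≤ p) (hss : W.IsSemistableModel) (hirr : W.ModRepIsIrreducible p) :
    SL1.Contra (EW W) p := by
  intro H hH htr hA
  by_cases h : (p : ℤ) ∣ W.Δ
  · exact SL1.mult_contra (EW W) p (RTE.isIntegralModelOf_EW W) h (hss p hp.out h) hp5 hirr hH htr hA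
  · exact SL1.good_contra (EW W) p (RTE.isIntegralModelOf_EW W) h hp5 hirr hH htr hA

theorem rdAll : RDAll := by
  intro W p _ _ hp5 hss hirr O _ _ hpO f i
  exact SL1.rd_EW_of (contra hp5 hss hirr) hss (by omega) hirr hpO f i

/-- **S38** -/
theorem s38 (p : ℕ) [Fact p.Prime] (hp2 : p ≠ 2) (W : WeierstrassCurve ℤ) (hΔ : W.Δ ≠ 0)
    (hW : W.IsSemistableModel)
    (hcard₁ : Nat.card (Submodule.torsionBy ℤ
      ((W.map (Int.castRingHom ℚ))⁄(AlgebraicClosure ℚ)).Point p) = p ^ 2)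
    (hker : GaloisFactorsThroughFiniteLevel
      (WeierstrassCurve.Affine.Point.galoisRepModuleEnd (K := AlgebraicClosure ℚ) ℚ
        (W.map (Int.castRingHom ℚ)) p))
    (hirr : W.ModRepIsIrreducible p) (M q : ℕ) (hq : q.Prime) (hqp : q ≠ p)
    (hqM : q ∣ M) (hM : Squarefree M)
    (hunr : ((W.map (Int.castRingHom ℚ)).residualGaloisRepOf p hcard₁ hker).IsUnramifiedAt q)
    (hres : W.IsResiduallyModularOfLevel p M) :
    W.IsResiduallyModularOfLevel p (M / q) := by
  refine lower lowX rdAll hp2 hΔ hW hirr hq hqp hqM hM (fun A hA s hs P hP => ?_) hres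
  have h1 := hunr A hA s hs
  have h2 := LinearMap.congr_fun h1 (⟨P, by
    rw [Submodule.mem_torsionBy_iff, natCast_zsmul]
    exact hP⟩ : Submodule.torsionBy ℤ
      ((W.map (Int.castRingHom ℚ))⁄(AlgebraicClosure ℚ)).Point p)
  exact congrArg Subtype.val h2

end Fermat.Agent.SL3
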