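import Fermat.Agent.SL3.Unr
import Fermat.Agent.ModAll.Final

/-!
# Level lowering for semistable curves at primes `q ≠ p`
-/

set_option autoImplicit false
set_option linter.unusedSectionVars false

noncomputable section

namespace Fermat.Agent.SL3

open IsLocalRing Fermat.Agent.DefRing Fermat.Agent.RTan Fermat.Agent.LocRing
open WeierstrassCurve WeierstrassCurve.Affine
open Fermat.Agent.TWP (Pl Pl_lies Qb)
open Fermat.Agent.RTM (Gal GalP Wp p_mem resEquiv algebraMap_injective Amb)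
open Fermat.Agent.RTX (SupplyX OkX AuxS auxS_one exists_auxS ambOKX exists_gal_rd)
open Fermat.Agent.RTE (EW rbE chiO)

/-- lowering in the patching systems (T2) -/
def LowX : Prop :=
  ∀ {O : Type} [CommRing O] [IsDomain O] [IsDiscreteValuationRing O]
    [IsAdicComplete (maximalIdeal O) O] [Finite (ResidueField O)] [CharZero O]
    {rbar : GQ →* M2 (ResidueField O)} {sd : SliceData rbar} {p : ℕ} [Fact p.Prime]
    {W : WeierstrassCurve ℤ} {χ : GQ → O} {m s N : ℕ} {G : Gal sd p W χ m} (_ : SupplyX G s)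
    (_ : m ≠ 0) (_ : p ∣ m) (_ : (p : O) ∈ maximalIdeal O)
    (_ : ∀ q : ℕ, q.Prime → (q : ℤ) ∣ W.Δ → q ∣ m) (_ : CycChar p χ) (_ : p ≠ 2)
    {l : Nat.Primes} (_ : (l : ℕ) ≠ p) (_ : OkX W p s m (N * l)) (_ : s ∣ N)
    (_ : ¬ p ∣ N * l ∨ Nonempty (GalP G)) (_ : rbar (G.τ l) = 1),
    W.IsResiduallyModularOfLevel p N

/-- the hypotheses of the Taylor–Wiles method for all semistable curves (T1) -/
def RDAll : Prop :=
  ∀ {W : WeierstrassCurve ℤ} {p : ℕ} [Fact p.Prime] [(EW W).IsElliptic] (_ : 5 ≤ p)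
    (_ : W.IsSemistableModel) (_ : W.ModRepIsIrreducible p)
    {O : Type} [CommRing O] [IsLocalRing O] (_ : (p : O) ∈ maximalIdeal O) (f : ℤ_[p] →+* O)
    (_ : GaloisField p 2 →+* ResidueField O), TWP.RD p (rbE (EW W) p f)

theorem exists_auxS' {W : WeierstrassCurve ℤ} {p : ℕ} (hp : p.Prime) (hp2 : p ≠ 2)
    (hΔ : W.Δ ≠ 0) (hss : W.IsSemistableModel) (hirr : W.ModRepIsIrreducible p) {m : ℕ}
    (hm : m ≠ 0) : ∃ s : ℕ, AuxS W p s ∧ (s = 1 ∨ (s.Prime ∧ ¬ s ∣ m)) := by
  by_cases h5 : 5 ≤ p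
  · exact ⟨1, auxS_one W h5, Or.inl rfl⟩
  · have h3 : p = 3 := by
      have := hp.two_le
      rcases (show p = 2 ∨ p = 3 ∨ p = 4 by omega) with h | h | h
      · exact absurd h hp2
      · exact h
      · exact absurd (h ▸ hp) (by norm_num)
    exact exists_auxS (Or.inl h3) hΔ hss hirr hm

theorem rd_all (H : RDAll) {W : WeierstrassCurve ℤ} {p : ℕ} [hp : Fact p.Prime]
    [(EW W).IsElliptic] (hp2 : p ≠ 2)
    (hss : W.IsSemistableModel) (hirr : W.ModRepIsIrreducible p)
    {O : Type} [CommRing O] [IsLocalRing O] (hpO : (p : O) ∈ maximalIdeal O) (f : ℤ_[p] →+* O)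
    (i : GaloisField p 2 →+* ResidueField O) : TWP.RD p (rbE (EW W) p f) := by
  by_cases h5 : 5 ≤ p
  · exact H h5 hss hirr hpO f i
  · have h3 : p = 3 := by
      have := hp.out.two_le
      rcases (show p = 2 ∨ p = 3 ∨ p = 4 by omega) with h | h | h
      · exact absurd h hp2
      · exact h
      · exact absurd (h ▸ hp.out) (by norm_num)
    exact RTX.rd_EW' hss (Or.inl h3) hirr hpO f i

section

variable {p s : ℕ} {W : WeierstrassCurve ℤ}

/-- one step -/
theorem step (HL : LowX) [hp : Fact p.Prime] {rbar : GQ →* M2 (ResidueField (Wp p))}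
    {χ : GQ → Wp p} {m : ℕ} {sd : SliceData rbar} {G : Gal sd p W χ m} (A : Amb G)
    (Y : SupplyX G s) {N l : ℕ} (hl : l.Prime) (hlp : l ≠ p) (hNm : N * s * l ∣ m)
    (hsq : Squarefree (N * s * l)) (hpN : ¬ p ∣ N * s * l ∨ Nonempty (GalP G))
    (hτ : rbar (G.τ ⟨l, hl⟩) = 1) (hres : W.IsResiduallyModularOfLevel p (N * s * l)) :
    W.IsResiduallyModularOfLevel p (N * s) :=
  HL Y A.hm A.hpm A.hpO A.hΔm A.hχ A.hp2 (l := ⟨l, hl⟩) hlp
    ⟨hNm, hsq, (dvd_mul_left s N).mul_right l, hres⟩ (dvd_mul_left s N) hpN hτ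

end

/-- **Level lowering for semistable curves at primes `q ≠ p`.** -/
theorem lower (HL : LowX) (HR : RDAll) {p : ℕ} [hp : Fact p.Prime] (hp2 : p ≠ 2)
    {W : WeierstrassCurve ℤ} (hΔ : W.Δ ≠ 0) (hss : W.IsSemistableModel)
    (hirr : W.ModRepIsIrreducible p) {M q : ℕ} (hq : q.Prime) (hqp : q ≠ p) (hqM : q ∣ M)
    (hM : Squarefree M)
    (hunr : ∀ A : ValuationSubring Qb, A.LiesOverPrime q → ∀ s ∈ A.inertiaSubgroupIn ℚ,
      ∀ P : ((EW W)⁄Qb).Point, p • P = 0 → s • P = P)
    (hres : W.IsResiduallyModularOfLevel p M) : W.IsResiduallyModularOfLevel p (M / q) := by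
  have hE : (EW W).IsElliptic := RTE.isElliptic_EW hΔ
  have hΔ' : W.Δ.natAbs ≠ 0 := Int.natAbs_ne_zero.mpr hΔ
  obtain ⟨s, hs, hs'⟩ := exists_auxS' hp.out hp2 hΔ hss hirr (m := W.Δ.natAbs * M)
    (mul_ne_zero hΔ' hM.ne_zero)
  have hs0 : s ≠ 0 := hs.ne_zero
  have hsp : s ≠ p := by
    rcases hs with ⟨h1, h5⟩ | h
    · rw [h1]; exact hp.out.one_lt.ne
    · exact h.2.2.1
  have hcop : ∀ {N : ℕ}, N ∣ W.Δ.natAbs * M → Nat.Coprime N s := fun {N} hN => by
    rcases hs' with h | ⟨h1, h2⟩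
    · rw [h]; exact Nat.coprime_one_right N
    · exact ((Nat.Prime.coprime_iff_not_dvd h1).mpr fun h => h2 (h.trans hN)).symm
  have hmul : ∀ {N : ℕ}, N ∣ W.Δ.natAbs * M → N ≠ 0 → W.IsResiduallyModularOfLevel p N →
      W.IsResiduallyModularOfLevel p (N * s) := fun {N} hN hN0 h => by
    rcases hs' with h1 | ⟨h1, h2⟩
    · rw [h1, mul_one]; exact h
    · exact Hedge.res_mul hΔ hp.out hp2 hirr hN0 h1 (fun h => h2 (h.trans hN)) h
  set m : ℕ := 2 * p * W.Δ.natAbs * (M * s) with hmdef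
  have hm : m ≠ 0 := mul_ne_zero (mul_ne_zero (mul_ne_zero two_ne_zero hp.out.ne_zero) hΔ')
    (mul_ne_zero hM.ne_zero hs0)
  have hpm : p ∣ m := ((dvd_mul_left p 2).mul_right _).mul_right _
  have h2m : 2 ∣ m := ((dvd_mul_right 2 p).mul_right _).mul_right _
  have hsm : s ∣ m := (dvd_mul_left s M).mul_left _
  have hΔm : ∀ q : ℕ, q.Prime → (q : ℤ) ∣ W.Δ → q ∣ m := fun q _ h =>
    ((Int.natCast_dvd.mp h).mul_left (2 * p)).mul_right _
  obtain ⟨sd, G, -, hP⟩ := exists_gal_rd hp2 (p_mem p) hss hirr (algebraMap ℤ_[p] (Wp p))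
    (algebraMap_injective p) (rd_all HR hp2 hss hirr (p_mem p) (algebraMap ℤ_[p] (Wp p))
      ((resEquiv p).symm : _ →+* _)) m hm hpm hΔm
  have A : Amb G := ⟨hp2, hm, hpm, p_mem p, hΔ, hΔm, hirr, RTE.cycChar_chiO p _⟩
  obtain ⟨Y⟩ := ambOKX p W _ _ m s sd G A hs h2m hsm
  -- removal of `s`
  have hrem : ∀ {N : ℕ}, N ∣ W.Δ.natAbs * M → N ≠ 0 →
      W.IsResiduallyModularOfLevel p (N * s) → W.IsResiduallyModularOfLevel p N := by
    intro N hN hN0 h
    rcases hs' with h1 | ⟨h1, h2⟩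
    · rwa [h1, mul_one] at h
    · rcases hs with ⟨h3, -⟩ | ⟨-, -, -, hsΔ, hne⟩
      · exact absurd h1 (h3 ▸ Nat.not_prime_one)
      · refine res_of_mul A hN0 h1 (fun h => h2 (h.trans hN)) hsp ?_ hsΔ hne h
        have h4 : N * s ∣ W.Δ.natAbs * M * s := mul_dvd_mul_right hN s
        have h5 : m = 2 * p * (W.Δ.natAbs * M * s) := by rw [hmdef]; ring
        rw [h5]
        exact h4.mul_left _
  -- `q` is a prime where the residual representation is unramified
  have hτq : rbE (EW W) p (algebraMap ℤ_[p] (Wp p)) (G.τ ⟨q, hq⟩) = 1 :=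
    RTM.rbE_eq_one (p_mem p) _ (hunr _ (Pl_lies _) _ (G.tame ⟨q, hq⟩ hqp).mem)
  obtain ⟨N, rfl⟩ := hqM
  rw [Nat.mul_div_cancel_left N hq.pos]
  have hN0 : N ≠ 0 := fun h => hM.ne_zero (by rw [h, mul_zero])
  have hNM : N ∣ W.Δ.natAbs * (q * N) := (dvd_mul_left N q).mul_left _
  refine hrem hNM hN0 ?_
  have hsqf : ∀ {K : ℕ}, K ∣ W.Δ.natAbs * (q * N) → Squarefree K → Squarefree (K * s) :=
    fun hK h => (Nat.squarefree_mul (hcop hK)).mpr ⟨h, hs.squarefree⟩
  by_cases hcase : ¬ p ∣ q * N ∨ (p : ℤ) ∣ W.Δ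
  · have e : N * s * q = q * N * s := by ring
    have h1 : q * N ∣ W.Δ.natAbs * (q * N) := dvd_mul_left _ _
    refine step HL A Y hq hqp (by rw [e]; exact dvd_mul_left _ _)
      (by rw [e]; exact hsqf h1 hM) ?_ hτq (by rw [e]; exact hmul h1 hM.ne_zero hres)
    rcases hcase with h | h
    · left
      rw [e]
      intro h2
      rcases hp.out.dvd_mul.mp h2 with h3 | h3
      · exact h h3
      · rcases hs' with h4 | ⟨h4, -⟩
        · rw [h4] at h3; exact hp.out.one_lt.ne' (Nat.dvd_one.mp h3)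
        · exact hsp ((Nat.prime_dvd_prime_iff_eq hp.out h4).mp h3).symm
    · exact Or.inr (hP h)
  · push Not at hcase
    obtain ⟨hpM, hpΔ⟩ := hcase
    -- start from the conductor
    obtain ⟨N₀, hN₀, hN₀Δ, hmod⟩ := ModAll.modAll W hΔ hss
    have hres₀ : W.IsResiduallyModularOfLevel p N₀ :=
      Final.residual_of_modular hp.out (fun ℓ hℓ h => (hN₀Δ ℓ hℓ).mpr h) hmod
        (fun ℓ _ _ _ _ => by rw [sub_self]; exact dvd_zero _)
    have hN₀d : N₀ ∣ W.Δ.natAbs := by
      rw [← Nat.prod_primeFactors_of_squarefree hN₀]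
      exact Finset.prod_primes_dvd _ (fun r hr => (Nat.prime_of_mem_primeFactors hr).prime)
        fun r hr => Int.natCast_dvd.mp ((hN₀Δ r (Nat.prime_of_mem_primeFactors hr)).mp
          (Nat.dvd_of_mem_primeFactors hr))
    have hpN₀ : ¬ p ∣ N₀ := fun h => hpΔ ((hN₀Δ p hp.out).mp h)
    -- descent
    have key : ∀ (c K : ℕ), K ≤ c → K ∣ N₀ → W.IsResiduallyModularOfLevel p (K * s) →
        W.IsResiduallyModularOfLevel p (N * s) := by
      intro c
      induction c with
      | zero =>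
        intro K hK hKN
        have : K = 0 := by omega
        exact absurd (by rw [this] at hKN; exact Nat.eq_zero_of_zero_dvd hKN) hN₀.ne_zero
      | succ c ih =>
        intro K hKc hK hKres
        have hK0 : K ≠ 0 := fun h => hN₀.ne_zero (Nat.eq_zero_of_zero_dvd (h ▸ hK))
        have hKsq : Squarefree K := hN₀.squarefree_of_dvd hK
        by_cases hKN : K ∣ N
        · refine res_of_dvd hΔ hp.out hp2 hirr (hsqf hNM (hM.squarefree_of_dvd
            (dvd_mul_left N q))) (mul_dvd_mul_right hKN s) hKres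
        · -- a prime dividing `K` but not `N`
          obtain ⟨l, hl, hlK, hlN⟩ : ∃ l : ℕ, l.Prime ∧ l ∣ K ∧ ¬ l ∣ N := by
            by_contra hcon
            push Not at hcon
            apply hKN
            rw [← Nat.prod_primeFactors_of_squarefree hKsq]
            exact Finset.prod_primes_dvd _ (fun r hr => (Nat.prime_of_mem_primeFactors hr).prime)
              fun r hr => hcon r (Nat.prime_of_mem_primeFactors hr)
                (Nat.dvd_of_mem_primeFactors hr)
          obtain ⟨K', rfl⟩ := hlK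
          have hlp : l ≠ p := fun h => hpN₀ (h ▸ (dvd_mul_right l K').trans hK)
          have e : K' * s * l = l * K' * s := by ring
          have hKd : l * K' ∣ W.Δ.natAbs * (q * N) := (hK.trans hN₀d).mul_right _
          have hτ : rbE (EW W) p (algebraMap ℤ_[p] (Wp p)) (G.τ ⟨l, hl⟩) = 1 := by
            by_cases hlq : l = q
            · subst hlq; exact hτq
            · refine rbar_unr A hM.ne_zero ((dvd_mul_right _ s).mul_left _) hres
                (l := ⟨l, hl⟩) (fun h => ?_) hlp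
              rcases hl.dvd_mul.mp h with h | h
              · exact hlq ((Nat.prime_dvd_prime_iff_eq hl hq).mp h)
              · exact hlN h
          have hK'lt : K' ≤ c := by
            have h1 : K' ≠ 0 := fun h => hK0 (by rw [h, mul_zero])
            have h2 : 2 * K' ≤ l * K' := Nat.mul_le_mul_right K' hl.two_le
            omega
          refine ih K' hK'lt ((dvd_mul_left K' l).trans hK) ?_
          refine step HL A Y hl hlp ?_ (by rw [e]; exact hsqf hKd hKsq) (Or.inl ?_) hτ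
            (by rw [e]; exact hKres)
          · rw [e]
            have h5 : m = 2 * p * (W.Δ.natAbs * (q * N) * s) := by rw [hmdef]; ring
            rw [h5]
            exact (mul_dvd_mul_right hKd s).mul_left _
          · rw [e]
            intro h2
            rcases hp.out.dvd_mul.mp h2 with h3 | h3
            · exact hpN₀ (h3.trans hK)
            · rcases hs' with h4 | ⟨h4, -⟩
              · rw [h4] at h3; exact hp.out.one_lt.ne' (Nat.dvd_one.mp h3)
              · exact hsp ((Nat.prime_dvd_prime_iff_eq hp.out h4).mp h3).symm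
    exact key N₀ N₀ le_rfl dvd_rfl (hmul (hN₀d.mul_right _) hN₀.ne_zero hres₀)

end Fermat.Agent.SL3
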