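import Fermat.Agent.RTX.Lift35

/-!
# Removing a good prime from a residual level
-/

set_option autoImplicit false
set_option linter.unusedSectionVars false

noncomputable section

namespace Fermat.Agent.SL3

open IsLocalRing Fermat.Agent.DefRing Fermat.Agent.RTan Fermat.Agent.LocRing
open Fermat.Agent.TWP (Pl Pl_lies Qb)
open Fermat.Agent.TW Fermat.Agent.TWDeg
open Fermat.Agent.RTM

/-- the Taylor–Wiles datum with no auxiliary primes -/
def twd0 (N : ℕ) (hN : N ≠ 0) : TWD PUnit.{1} where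
  N := N
  Q := ∅
  χ _ := 1
  tws := ⟨hN, fun q hq => absurd hq (Finset.notMem_empty q), fun q hq =>
    absurd hq (Finset.notMem_empty q)⟩
  surj q hq := absurd hq (Finset.notMem_empty q)
  odd := by rw [Nat.card_unique]; exact odd_one

theorem twd0_K (N : ℕ) (hN : N ≠ 0) (t t' : ℕ → LT) : (twd0 N hN).K t = (twd0 N hN).K t' := by
  ext x
  constructor
  · exact fun h => ⟨h.1, fun q hq => absurd hq (Finset.notMem_empty q)⟩
  · exact fun h => ⟨h.1, fun q hq => absurd hq (Finset.notMem_empty q)⟩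

section

variable {O : Type} [CommRing O] [IsDomain O] [IsDiscreteValuationRing O]
  [IsAdicComplete (maximalIdeal O) O] [Finite (ResidueField O)] [CharZero O]
  {rbar : GQ →* M2 (ResidueField O)} {sd : SliceData rbar} {p : ℕ} [hp : Fact p.Prime]
  {W : WeierstrassCurve ℤ} {χ : GQ → O} {m : ℕ} {G : Gal sd p W χ m} (A : Amb G)

include A in
theorem subsingleton_iff {N : ℕ} (hN : N ≠ 0) (hNm : N ∣ m) (hM : (twd0 N hN).M ∣ m) :
    Subsingleton (MQ (twd0 N hN) hM (PP W m O) O) ↔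
      Subsingleton (Loc (PP W m O) (HG m N hNm O)) := by
  have hN0 : NeZero N := ⟨hN⟩
  obtain ⟨e⟩ := exists_base_full A.h30 A.hm dvd_rfl A.hpm A.hpO sd A.hspan
    G.rd.cont (fun n _ => A.hES n) A.hloc (A.resId dvd_rfl) (A.resId dvd_rfl) (twd0 N hN)
    hM hNm (A.hE m A.hm _ (NeZero.ne _)) (fun q hq => absurd hq (Finset.notMem_empty q))
    (fun q hq => absurd hq (Finset.notMem_empty q))
  have h1 : Subsingleton (Loc (PP W m O) ((XF hM).H (funRep (M := (twd0 N hN).M) O O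
      (twd0 N hN).Y0))) ↔ Subsingleton (Loc (PP W m O) (HG m N hNm O)) := by
    rw [e.toEquiv.subsingleton_congr]
    constructor
    · intro h
      refine ⟨fun x y => ?_⟩
      have h2 : (fun _ => x : Fin (2 ^ (twd0 N hN).Q.card) → Loc (PP W m O) (HG m N hNm O)) =
        fun _ => y := h.elim _ _
      exact congrFun h2 ⟨0, Nat.two_pow_pos _⟩
    · intro h
      exact ⟨fun x y => funext fun i => h.elim (x i) (y i)⟩
  rw [← h1]
  have key : ∀ K K' : Subgroup (Matrix.GeneralLinearGroup (Fin 2) (ZMod (twd0 N hN).M)), K = K' →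
      (Subsingleton (Loc (PP W m O) ((XF hM).H (funRep (M := (twd0 N hN).M) O O
        (Matrix.GeneralLinearGroup (Fin 2) (ZMod (twd0 N hN).M) ⧸ K)))) ↔
      Subsingleton (Loc (PP W m O) ((XF hM).H (funRep (M := (twd0 N hN).M) O O
        (Matrix.GeneralLinearGroup (Fin 2) (ZMod (twd0 N hN).M) ⧸ K'))))) := by
    rintro K _ rfl
    exact Iff.rfl
  exact key _ _ (twd0_K N hN _ _)

include A in
/-- **Removal of a good prime from a residual level.** -/
theorem res_of_mul {N s : ℕ} (hN : N ≠ 0) (hs : s.Prime) (hsN : ¬ s ∣ N) (hsp : s ≠ p)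
    (hNm : N * s ∣ m) (hsΔ : ¬ (s : ℤ) ∣ W.Δ)
    (hne : ¬ (p : ℤ) ∣ W.apOfModel s ^ 2 - ((s : ℤ) + 1) ^ 2)
    (h : W.IsResiduallyModularOfLevel p (N * s)) : W.IsResiduallyModularOfLevel p N := by
  by_contra hres
  have hNs : N * s ≠ 0 := mul_ne_zero hN hs.ne_zero
  have hN0 : NeZero N := ⟨hN⟩
  have hNs0 : NeZero (N * s) := ⟨hNs⟩
  have hNm' : N ∣ m := (dvd_mul_right N s).trans hNm
  have e0 : (twd0 N hN).M = N := by
    show N * ∏ q ∈ (∅ : Finset ℕ), q = N
    rw [Finset.prod_empty, mul_one]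
  have e1 : (twd0 (N * s) hNs).M = N * s := by
    show N * s * ∏ q ∈ (∅ : Finset ℕ), q = N * s
    rw [Finset.prod_empty, mul_one]
  have hM : (twd0 N hN).M ∣ m := by rw [e0]; exact hNm'
  have hM' : (twd0 (N * s) hNs).M ∣ m := by rw [e1]; exact hNm
  -- the lower level vanishes
  have h0 : Subsingleton (MQ (twd0 N hN) hM (PP W m O) O) := by
    rw [subsingleton_iff A hN hNm' hM]
    exact RT8X.subsingleton_HG W A.hΔ A.hp2 A.hirr A.hpO A.hm hNm' hres
  -- the upper level does not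
  have h1 : Nontrivial (MQ (twd0 (N * s) hNs) hM' (PP W m O) O) := by
    rw [← not_subsingleton_iff_nontrivial, subsingleton_iff A hNs hNm hM',
      not_subsingleton_iff_nontrivial]
    exact nz_of_res W O A.hm hp.out A.hpm A.hpO A.hΔm hNm h
  obtain ⟨R⟩ := exists_hrepQ A.h30 (fun n _ => A.hES n) (twd0 (N * s) hNs) A.hm hM' A.hpm A.hpO sd
    A.hspan G.rd.cont _ (A.resId dvd_rfl) (A.hE m A.hm _ (NeZero.ne _))
  obtain ⟨τ, hτ⟩ := Frob.exists_isFrobeniusAt (L := AlgebraicClosure ℚ) hs (Pl_lies ⟨s, hs⟩)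
  have h2 := RT8X.trace_sq (twd0 N hN) hs (Finset.notMem_empty s) hM hM' hsN A.hm A.hpm hsp A.hpO
    (PP W m O) (A.hE m A.hm _ (NeZero.ne _)) R h0 (Pl_lies ⟨s, hs⟩) hτ
  -- reduction
  obtain ⟨a, ha⟩ := residue_surjective (R := O) (rbar τ 0 0)
  obtain ⟨b, hb⟩ := residue_surjective (R := O) (rbar τ 1 1)
  have h3 := R.C.red τ 0 0 a ha
  have h4 := R.C.red τ 1 1 b hb
  have h5 : algebraMap O R.C.T ((a + b) ^ 2 - ((s : O) + 1) ^ 2) ∈ maximalIdeal R.C.T := by
    have e : algebraMap O R.C.T ((a + b) ^ 2 - ((s : O) + 1) ^ 2) =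
        (R.C.r τ 0 0 - algebraMap O R.C.T a) * (-(R.C.r τ).trace - algebraMap O R.C.T (a + b)) +
        (R.C.r τ 1 1 - algebraMap O R.C.T b) * (-(R.C.r τ).trace - algebraMap O R.C.T (a + b)) := by
      have h6 : (R.C.r τ 0 0 + R.C.r τ 1 1) ^ 2 = ((s : R.C.T) + 1) ^ 2 := by
        rw [← Matrix.trace_fin_two]; exact h2
      rw [Matrix.trace_fin_two, map_sub, map_pow, map_pow, map_add, map_add, map_natCast, map_one,
        ← h6]
      ring
    rw [e]
    exact Ideal.add_mem _ (Ideal.mul_mem_right _ _ h3) (Ideal.mul_mem_right _ _ h4)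
  have h6 : (a + b) ^ 2 - ((s : O) + 1) ^ 2 ∈ maximalIdeal O := by
    rw [mem_maximalIdeal, mem_nonunits_iff] at h5 ⊢
    exact fun h => h5 (h.map _)
  rw [← residue_eq_zero_iff, map_sub, map_pow, map_add, ha, hb, ← Matrix.trace_fin_two,
    G.rbar_tr ⟨s, hs⟩ hsp hsΔ _ (Pl_lies ⟨s, hs⟩) τ hτ] at h6
  refine RTX.intCast_ne_zero A hne ?_
  rw [← h6]
  push_cast
  simp

end

end Fermat.Agent.SL3
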