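import Fermat.Agent.SL3.RemRes
import Fermat.Agent.Hedge.Low
import Fermat.Agent.RTM.LowSS

/-!
# Residual ramification and residual levels
-/

set_option autoImplicit false
set_option linter.unusedSectionVars false

noncomputable section

namespace Fermat.Agent.SL3

open IsLocalRing Fermat.Agent.DefRing Fermat.Agent.RTan Fermat.Agent.LocRing
open Fermat.Agent.TWP (Pl Pl_lies Qb)
open Fermat.Agent.TW Fermat.Agent.TWDeg
open Fermat.Agent.RTM

/-- monotonicity of residual modularity -/
theorem res_of_dvd {W : WeierstrassCurve ℤ} (hΔ : W.Δ ≠ 0) {p : ℕ} (hp : p.Prime) (hp2 : p ≠ 2)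
    (hirr : W.ModRepIsIrreducible p) {N M : ℕ} (hM : Squarefree M) (hNM : N ∣ M)
    (hres : W.IsResiduallyModularOfLevel p N) : W.IsResiduallyModularOfLevel p M := by
  obtain ⟨c, rfl⟩ := hNM
  induction c using induction_on_primes with
  | zero => exact absurd rfl (by rw [mul_zero] at hM; exact hM.ne_zero)
  | one => rwa [mul_one]
  | prime_mul q c hq ih =>
    have h1 : N * (q * c) = N * c * q := by ring
    rw [h1] at hM ⊢
    have h2 : Squarefree (N * c) := hM.squarefree_of_dvd (dvd_mul_right _ _)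
    refine Hedge.res_mul hΔ hp hp2 hirr h2.ne_zero hq (fun h => ?_) (ih h2)
    exact hq.not_isUnit (hM q (mul_dvd_mul_right h q))

section

variable {O : Type} [CommRing O] [IsDomain O] [IsDiscreteValuationRing O]
  [IsAdicComplete (maximalIdeal O) O] [Finite (ResidueField O)] [CharZero O]
  {rbar : GQ →* M2 (ResidueField O)} {sd : SliceData rbar} {p : ℕ} [hp : Fact p.Prime]
  {W : WeierstrassCurve ℤ} {χ : GQ → O} {m : ℕ} {G : Gal sd p W χ m} (A : Amb G)

/-- the residual representation is determined by any lift -/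
theorem rbar_eq_one_of (C : RT8.Cpt sd) {σ : GQ} (h : C.r σ = 1) : rbar σ = 1 := by
  refine Matrix.ext fun a b => ?_
  obtain ⟨o, ho⟩ := residue_surjective (R := O) (rbar σ a b)
  have h2 := C.red σ a b o ho
  rw [h] at h2
  have h3 : (1 : M2 C.T) a b - algebraMap O _ o = algebraMap O C.T ((1 : M2 O) a b - o) := by
    rw [map_sub]
    congr 1
    by_cases hab : a = b
    · subst hab; simp
    · simp [Matrix.one_apply_ne hab]
  rw [h3] at h2
  have h4 : (1 : M2 O) a b - o ∈ maximalIdeal O := by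
    rw [mem_maximalIdeal, mem_nonunits_iff] at h2 ⊢
    exact fun h => h2 (h.map _)
  rw [← residue_eq_zero_iff, map_sub, sub_eq_zero] at h4
  rw [← ho, ← h4]
  by_cases hab : a = b
  · subst hab; simp
  · simp [Matrix.one_apply_ne hab]

include A in
/-- **residual modularity of level `N` implies unramified outside `N p`** -/
theorem rbar_unr {N : ℕ} (hN : N ≠ 0) (hNm : N ∣ m) (h : W.IsResiduallyModularOfLevel p N)
    {l : Nat.Primes} (hlN : ¬ (l : ℕ) ∣ N) (hlp : (l : ℕ) ≠ p) : rbar (G.τ l) = 1 := by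
  have hN0 : NeZero N := ⟨hN⟩
  have h1 : Nontrivial (Loc (PP W m O) (HG m N hNm O)) :=
    nz_of_res W O A.hm hp.out A.hpm A.hpO A.hΔm hNm h
  obtain ⟨R⟩ := exists_hrep_base A.h30 hNm A.hpm A.hpO sd A.hspan G.rd.cont (A.hES N)
    (A.resId dvd_rfl) (A.hE m A.hm N hN) A.hm
  exact rbar_eq_one_of R.C (R.unr l l.2 hlN hlp (Pl l) (Pl_lies _) _ (G.tame l hlp).mem)

end

end Fermat.Agent.SL3
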